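/-
Program B' (S34), package L1 (helper75, for helper64's `TwoGaussStatement`): the clauses of
`S34.H64.TwoGauss` that only depend on the `q`-expansion Gauss ring, proved for

  `O₁ := H66.gaussRing A (modularFunctionFieldBar (M * q)) hS`

with an ARBITRARY scaling hypothesis `hS : HScale A (modularFunctionFieldBar (M * q)) Fk`
(so that they plug into any proof of `HScale` at the level `M q` divisible by the residue
characteristic `q`):

* (C) `algebraMap_mem_iff`, `scale`;
* (R) `alpha_mem_iff`, `beta_mem_iff` : `O₁ ∩ α(F_M) = α(O_M)`, `O₁ ∩ β(F_M) = β(O_M)`;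
* (K) `kronecker` : `β f ≡ α(s⁻¹ f)^q` modulo the maximal ideal of `O₁`;
* (G) `galois_mem`, `inertia_sub_mem`;
* (I) `j_sub_beta_not_mem` : `j` is not congruent to an element of `β(O_M)`.
-/
import Mathlib
import Fermat.Agent.S34.H64.TwoGaussDefs

set_option autoImplicit false
set_option linter.unusedSectionVars false
set_option linter.style.haveILetI false

noncomputable section

namespace Fermat.Agent.S34.H75

open ModularCurve AlgebraicCurve IntermediateField Fermat.Agent.S28 Fermat.Agent.S18.H66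
  Fermat.Agent.S37.H65

section Series

/-- In `k((q))`, `j · Y₂(q^n) ≠ Y₁(q^n)` for `n ≥ 2` and `Y₂ ≠ 0`: the left side has order
`≡ -1` modulo `n`. -/
theorem jq_mul_qExpand_ne (k : Type*) [Field k] (n : ℕ) [NeZero n] (hn : 2 ≤ n)
    (y₁ y₂ : LaurentSeries k) (hy₂ : y₂ ≠ 0) :
    jqModC k * qExpand k n y₂ ≠ qExpand k n y₁ := by
  intro h
  have hQ2 : qExpand k n y₂ ≠ 0 := fun h0 => hy₂ (qExpand_injective n (by rw [h0, map_zero]))
  have h1 : (jqModC k).coeff (-1) ≠ 0 := by
    rw [coeff_jqModC_neg_one]; exact one_ne_zero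
  have hj : jqModC k ≠ 0 := HahnSeries.ne_zero_of_coeff_ne_zero h1
  have hord : (jqModC k).order = -1 := by
    have hle := HahnSeries.order_le_of_coeff_ne_zero h1
    by_contra hcon
    have hlt : (jqModC k).order < -1 := lt_of_le_of_ne hle hcon
    exact hj (HahnSeries.coeff_order_eq_zero.mp (coeff_jqModC_of_lt k hlt))
  have h2 := congrArg HahnSeries.order h
  rw [HahnSeries.order_mul hj hQ2, hord, Fermat.Agent.S24.order_qExpand,
    Fermat.Agent.S24.order_qExpand] at h2
  have h3 : (n : ℤ) * (y₂.order - y₁.order) = 1 := by rw [mul_sub]; linarith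
  have h4 : (n : ℤ) ∣ 1 := ⟨_, h3.symm⟩
  have h5 := Int.le_of_dvd one_pos h4
  omega

end Series

section Clauses

variable (A : ValuationSubring Kb) (M q : ℕ) [NeZero M] [Fact q.Prime]
  {Fk : Set (LaurentSeries (IsLocalRing.ResidueField A))}
  (hS : HScale A (modularFunctionFieldBar (M * q)) Fk)
  (hA : A.LiesOverPrime q) (hqM : ¬ q ∣ M)

/-! ### (C) constants and scaling -/

/-- `O₁ ∩ ℚ̄ = A`. -/
theorem algebraMap_mem_iff (a : Kb) :
    algebraMap Kb ↥(modularFunctionFieldBar (M * q)) a ∈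
      gaussRing A (modularFunctionFieldBar (M * q)) hS ↔ a ∈ A :=
  algebraMap_mem_gaussRing_iff hS a

/-- The value group of `O₁` is that of `A`. -/
theorem scale (g : ↥(modularFunctionFieldBar (M * q))) (hg : g ≠ 0) :
    ∃ c : Kb, c ≠ 0 ∧
      algebraMap Kb ↥(modularFunctionFieldBar (M * q)) c * g ∈
        gaussRing A (modularFunctionFieldBar (M * q)) hS ∧
      (algebraMap Kb ↥(modularFunctionFieldBar (M * q)) c * g)⁻¹ ∈
        gaussRing A (modularFunctionFieldBar (M * q)) hS :=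
  exists_scale hS g hg

/-! ### Presentations along `α` and `β` -/

/-- A presentation `f = Y₁ / Y₂` at level `M` is a presentation of `α f` at level `M q`. -/
theorem alpha_presentation {f : ↥(modularFunctionFieldBar M)} {y₁ y₂ : LaurentSeries A}
    (hyF : incl A y₂ ∈ modularFunctionFieldBar M)
    (hfy : (f : LaurentSeries Kb) * incl A y₂ = incl A y₁) :
    incl A y₂ ∈ modularFunctionFieldBar (M * q) ∧
      ((heckeAlphaBar Kb M q f : ↥(modularFunctionFieldBar (M * q))) : LaurentSeries Kb) *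
        incl A y₂ = incl A y₁ := by
  refine ⟨?_, ?_⟩
  · have h := (heckeAlphaBar Kb M q ⟨incl A y₂, hyF⟩).2
    rw [coe_heckeAlphaBar] at h
    exact h
  · rw [coe_heckeAlphaBar]
    exact hfy

/-- A presentation `f = Y₁ / Y₂` at level `M` gives the presentation
`β f = Y₁(q^q) / Y₂(q^q)` at level `M q`. -/
theorem beta_presentation {f : ↥(modularFunctionFieldBar M)} {y₁ y₂ : LaurentSeries A}
    (hyF : incl A y₂ ∈ modularFunctionFieldBar M)
    (hfy : (f : LaurentSeries Kb) * incl A y₂ = incl A y₁) :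
    incl A (qExpand A q y₂) ∈ modularFunctionFieldBar (M * q) ∧
      ((heckeBetaBar Kb M q f : ↥(modularFunctionFieldBar (M * q))) : LaurentSeries Kb) *
        incl A (qExpand A q y₂) = incl A (qExpand A q y₁) := by
  refine ⟨?_, ?_⟩
  · show coeffMap A.subtype (qExpand A q y₂) ∈ modularFunctionFieldBar (M * q)
    rw [coeffMap_qExpand]
    exact (heckeBetaBar Kb M q ⟨coeffMap A.subtype y₂, hyF⟩).2
  · show _ * coeffMap A.subtype (qExpand A q y₂) = coeffMap A.subtype (qExpand A q y₁)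
    rw [coe_heckeBetaBar, coeffMap_qExpand, coeffMap_qExpand, ← map_mul]
    exact congrArg _ hfy

theorem redA_qExpand_ne_zero {y : LaurentSeries A} (hy : redA A y ≠ 0) :
    redA A (qExpand A q y) ≠ 0 := by
  show coeffMap (IsLocalRing.residue A) (qExpand A q y) ≠ 0
  rw [coeffMap_qExpand]
  intro h
  apply hy
  apply qExpand_injective q
  rw [map_zero]
  exact h

theorem redA_qExpand_eq_zero {y : LaurentSeries A} (hy : redA A y = 0) :
    redA A (qExpand A q y) = 0 := by
  show coeffMap (IsLocalRing.residue A) (qExpand A q y) = 0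
  rw [coeffMap_qExpand]
  have : coeffMap (IsLocalRing.residue A) y = 0 := hy
  rw [this, map_zero]

/-! ### (R) restriction to `α(F_M)` and `β(F_M)` -/

theorem alpha_mem {f : ↥(modularFunctionFieldBar M)} (hf : f ∈ gaussO A M hA hqM) :
    heckeAlphaBar Kb M q f ∈ gaussRing A (modularFunctionFieldBar (M * q)) hS := by
  obtain ⟨y₁, y₂, hy, hyF, hfy⟩ := (mem_gaussO_iff A M hA hqM f).mp hf
  obtain ⟨h1, h2⟩ := alpha_presentation A M q hyF hfy
  exact (mem_gaussRing_iff hS _).mpr ⟨y₁, y₂, hy, h1, h2⟩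

theorem alpha_mem_nonunits {f : ↥(modularFunctionFieldBar M)}
    (hf : f ∈ (gaussO A M hA hqM).nonunits) :
    heckeAlphaBar Kb M q f ∈ (gaussRing A (modularFunctionFieldBar (M * q)) hS).nonunits := by
  obtain ⟨y₁, y₂, hy₁, hy, hyF, hfy⟩ := (mem_nonunits_gaussO_iff A M hA hqM f).mp hf
  obtain ⟨h1, h2⟩ := alpha_presentation A M q hyF hfy
  exact (mem_nonunits_gaussRing_iff hS _).mpr ⟨y₁, y₂, hy₁, hy, h1, h2⟩

/-- **(R)** `O₁ ∩ α(F_M) = α(O_M)`. -/
theorem alpha_mem_iff (f : ↥(modularFunctionFieldBar M)) :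
    heckeAlphaBar Kb M q f ∈ gaussRing A (modularFunctionFieldBar (M * q)) hS ↔
      f ∈ gaussO A M hA hqM := by
  refine ⟨fun h => ?_, alpha_mem A M q hS hA hqM⟩
  by_contra hcO
  have h1 : f⁻¹ ∈ (gaussO A M hA hqM).nonunits := by
    rw [ValuationSubring.mem_nonunits_iff_or, inv_inv]
    exact Or.inr hcO
  have h2 := alpha_mem_nonunits A M q hS hA hqM h1
  rw [map_inv₀, ValuationSubring.mem_nonunits_iff_or, inv_inv] at h2
  rcases h2 with h2 | h2
  · rw [inv_eq_zero, map_eq_zero] at h2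
    apply hcO
    rw [h2]
    exact (gaussO A M hA hqM).zero_mem
  · exact h2 h

theorem beta_mem {f : ↥(modularFunctionFieldBar M)} (hf : f ∈ gaussO A M hA hqM) :
    heckeBetaBar Kb M q f ∈ gaussRing A (modularFunctionFieldBar (M * q)) hS := by
  obtain ⟨y₁, y₂, hy, hyF, hfy⟩ := (mem_gaussO_iff A M hA hqM f).mp hf
  obtain ⟨h1, h2⟩ := beta_presentation A M q hyF hfy
  exact (mem_gaussRing_iff hS _).mpr
    ⟨qExpand A q y₁, qExpand A q y₂, redA_qExpand_ne_zero A q hy, h1, h2⟩

theorem beta_mem_nonunits {f : ↥(modularFunctionFieldBar M)}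
    (hf : f ∈ (gaussO A M hA hqM).nonunits) :
    heckeBetaBar Kb M q f ∈ (gaussRing A (modularFunctionFieldBar (M * q)) hS).nonunits := by
  obtain ⟨y₁, y₂, hy₁, hy, hyF, hfy⟩ := (mem_nonunits_gaussO_iff A M hA hqM f).mp hf
  obtain ⟨h1, h2⟩ := beta_presentation A M q hyF hfy
  exact (mem_nonunits_gaussRing_iff hS _).mpr
    ⟨qExpand A q y₁, qExpand A q y₂, redA_qExpand_eq_zero A q hy₁,
      redA_qExpand_ne_zero A q hy, h1, h2⟩

/-- **(R)** `O₁ ∩ β(F_M) = β(O_M)`. -/
theorem beta_mem_iff (f : ↥(modularFunctionFieldBar M)) :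
    heckeBetaBar Kb M q f ∈ gaussRing A (modularFunctionFieldBar (M * q)) hS ↔
      f ∈ gaussO A M hA hqM := by
  refine ⟨fun h => ?_, beta_mem A M q hS hA hqM⟩
  by_contra hcO
  have h1 : f⁻¹ ∈ (gaussO A M hA hqM).nonunits := by
    rw [ValuationSubring.mem_nonunits_iff_or, inv_inv]
    exact Or.inr hcO
  have h2 := beta_mem_nonunits A M q hS hA hqM h1
  rw [map_inv₀, ValuationSubring.mem_nonunits_iff_or, inv_inv] at h2
  rcases h2 with h2 | h2
  · rw [inv_eq_zero, map_eq_zero] at h2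
    apply hcO
    rw [h2]
    exact (gaussO A M hA hqM).zero_mem
  · exact h2 h

/-! ### (G) the Galois action -/

/-- **(G)** the decomposition group of `A` preserves `O₁`. -/
theorem galois_mem (σ : Kb ≃ₐ[ℚ] Kb) (hσ : σ ∈ A.decompositionSubgroup ℚ)
    (g : ↥(modularFunctionFieldBar (M * q)))
    (hg : g ∈ gaussRing A (modularFunctionFieldBar (M * q)) hS) :
    arithmeticRingAut (modularFunctionFieldFull (M * q)) σ g ∈
      gaussRing A (modularFunctionFieldBar (M * q)) hS := by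
  obtain ⟨y₁, y₂, hy, hyF, hfy⟩ := (mem_gaussRing_iff hS g).mp hg
  set τ : A.decompositionSubgroup ℚ := ⟨σ, hσ⟩ with hτ
  exact (mem_gaussRing_iff hS _).mpr ⟨galA A τ y₁, galA A τ y₂, redA_galA_ne_zero A τ hy,
    incl_galA_mem A (M * q) τ hyF, galois_presentation A (M * q) τ hfy⟩

/-- The decomposition group of `A` preserves the maximal ideal of `O₁`. -/
theorem galois_mem_nonunits (σ : Kb ≃ₐ[ℚ] Kb) (hσ : σ ∈ A.decompositionSubgroup ℚ)
    (g : ↥(modularFunctionFieldBar (M * q)))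
    (hg : g ∈ (gaussRing A (modularFunctionFieldBar (M * q)) hS).nonunits) :
    arithmeticRingAut (modularFunctionFieldFull (M * q)) σ g ∈
      (gaussRing A (modularFunctionFieldBar (M * q)) hS).nonunits := by
  obtain ⟨y₁, y₂, hy₁, hy, hyF, hfy⟩ := (mem_nonunits_gaussRing_iff hS g).mp hg
  set τ : A.decompositionSubgroup ℚ := ⟨σ, hσ⟩ with hτ
  refine (mem_nonunits_gaussRing_iff hS _).mpr ⟨galA A τ y₁, galA A τ y₂, ?_,
    redA_galA_ne_zero A τ hy, incl_galA_mem A (M * q) τ hyF,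
    galois_presentation A (M * q) τ hfy⟩
  have h := redA_galA A τ y₁
  rw [show redA A y₁ = 0 from hy₁, map_zero] at h
  exact h

/-- **(G)** inertia acts trivially on the residue field of `O₁`. -/
theorem inertia_sub_mem (σ : Kb ≃ₐ[ℚ] Kb) (hσ : σ ∈ A.inertiaSubgroupIn ℚ)
    (c : ↥(modularFunctionFieldBar (M * q)))
    (hc : c ∈ gaussRing A (modularFunctionFieldBar (M * q)) hS) :
    arithmeticRingAut (modularFunctionFieldFull (M * q)) σ c - c ∈
      (gaussRing A (modularFunctionFieldBar (M * q)) hS).nonunits := by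
  obtain ⟨g, hg, rfl⟩ := hσ
  show arithmeticRingAut (modularFunctionFieldFull (M * q)) (g : Kb ≃ₐ[ℚ] Kb) c - c ∈
    (gaussRing A (modularFunctionFieldBar (M * q)) hS).nonunits
  have hK : actK A g = RingHom.id _ := by
    have h1 : MulSemiringAction.toRingAut (A.decompositionSubgroup ℚ)
        (IsLocalRing.ResidueField A) g = 1 := MonoidHom.mem_ker.mp hg
    ext x
    exact congrArg (fun e : RingAut (IsLocalRing.ResidueField A) => e x) h1
  obtain ⟨y₁, y₂, hy, hyF, hfy⟩ := (mem_gaussRing_iff hS c).mp hc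
  have h1 := galois_presentation A (M * q) g hfy
  refine (mem_nonunits_gaussRing_iff hS _).mpr
    ⟨galA A g y₁ * y₂ - y₁ * galA A g y₂, galA A g y₂ * y₂, ?_, ?_, ?_, ?_⟩
  · have e : ∀ y : LaurentSeries A, redA A (galA A g y) = redA A y := by
      intro y
      rw [redA_galA, hK, coeffMap_id]
    show redA A (galA A g y₁ * y₂ - y₁ * galA A g y₂) = 0
    rw [map_sub, map_mul, map_mul, e, e, sub_self]
  · show redA A (galA A g y₂ * y₂) ≠ 0
    rw [map_mul]
    exact mul_ne_zero (redA_galA_ne_zero A g hy) hy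
  · show incl A (galA A g y₂ * y₂) ∈ modularFunctionFieldBar (M * q)
    rw [map_mul]
    exact mul_mem (incl_galA_mem A (M * q) g hyF) hyF
  · show ((arithmeticRingAut (modularFunctionFieldFull (M * q)) (g : Kb ≃ₐ[ℚ] Kb) c
        - c : ↥(modularFunctionFieldBar (M * q))) : LaurentSeries Kb) *
          incl A (galA A g y₂ * y₂) = incl A (galA A g y₁ * y₂ - y₁ * galA A g y₂)
    rw [map_sub, map_mul, map_mul, map_mul, ← h1, ← hfy, AddSubgroupClass.coe_sub]
    show (_ - _) * _ = _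
    ring

/-! ### (K) Kronecker -/

/-- **(K)** Kronecker's congruence in `O₁`: `β f ≡ α(s⁻¹ f)^q` for `f ∈ O_M` and a Frobenius
`s` at `A`. -/
theorem kronecker (s : Kb ≃ₐ[ℚ] Kb) (hs : A.IsFrobeniusAt s q)
    (f : ↥(modularFunctionFieldBar M)) (hf : f ∈ gaussO A M hA hqM) :
    heckeBetaBar Kb M q f -
        heckeAlphaBar Kb M q (arithmeticRingAut (modularFunctionFieldFull M) s⁻¹ f) ^ q ∈
      (gaussRing A (modularFunctionFieldBar (M * q)) hS).nonunits := by
  haveI := charP_residueField A hA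
  obtain ⟨y₁, y₂, hy, hyF, hfy⟩ := (mem_gaussO_iff A M hA hqM f).mp hf
  set g : A.decompositionSubgroup ℚ := ⟨s, hs.mem_decompositionSubgroup⟩ with hg
  have hfrob : actK A g = frobenius (IsLocalRing.ResidueField A) q :=
    RingHom.ext fun x => by
      rw [frobenius_def]
      exact hs.smul_residue_eq x
  -- the presentation of `s⁻¹ f` at level `M`, pushed to level `M q` along `α`
  have hg2 := galois_presentation A M g⁻¹ hfy
  have hg2F := incl_galA_mem A M g⁻¹ hyF
  obtain ⟨ha2F, ha⟩ := alpha_presentation A M q hg2F hg2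
  -- the presentation of `β f`
  obtain ⟨hb2F, hb⟩ := beta_presentation A M q hyF hfy
  -- reductions
  have hred : ∀ y : LaurentSeries A,
      redA A (galA A g⁻¹ y ^ q) = redA A (qExpand A q y) := by
    intro y
    rw [map_pow, pow_char_eq_qExpand q, redA_galA A g⁻¹ y, ← hfrob, coeffMap_coeffMap,
      actK_comp_actK_inv, coeffMap_id]
    show _ = coeffMap (IsLocalRing.residue A) (qExpand A q y)
    rw [coeffMap_qExpand]
  obtain ⟨a₁, ha₁⟩ : ∃ a, a = galA A g⁻¹ y₁ := ⟨_, rfl⟩
  obtain ⟨a₂, ha₂⟩ : ∃ a, a = galA A g⁻¹ y₂ := ⟨_, rfl⟩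
  obtain ⟨b₁, hb₁⟩ : ∃ b, b = qExpand A q y₁ := ⟨_, rfl⟩
  obtain ⟨b₂, hb₂⟩ : ∃ b, b = qExpand A q y₂ := ⟨_, rfl⟩
  have hr₁ : redA A (a₁ ^ q) = redA A b₁ := by rw [ha₁, hb₁]; exact hred y₁
  have hr₂ : redA A (a₂ ^ q) = redA A b₂ := by rw [ha₂, hb₂]; exact hred y₂
  have hb₂0 : redA A b₂ ≠ 0 := by rw [hb₂]; exact redA_qExpand_ne_zero A q hy
  rw [← ha₁, ← ha₂] at ha
  rw [← ha₂] at ha2F
  rw [← hb₁, ← hb₂] at hb
  rw [← hb₂] at hb2F
  refine (mem_nonunits_gaussRing_iff hS _).mpr ⟨b₁ * a₂ ^ q - a₁ ^ q * b₂, b₂ * a₂ ^ q, ?_, ?_, ?_, ?_⟩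
  · show redA A (b₁ * a₂ ^ q - a₁ ^ q * b₂) = 0
    rw [map_sub, map_mul, map_mul, hr₁, hr₂, sub_self]
  · show redA A (b₂ * a₂ ^ q) ≠ 0
    rw [map_mul, hr₂]
    exact mul_ne_zero hb₂0 hb₂0
  · show incl A (b₂ * a₂ ^ q) ∈ modularFunctionFieldBar (M * q)
    rw [map_mul, map_pow]
    exact mul_mem hb2F (pow_mem ha2F q)
  · show ((heckeBetaBar Kb M q f -
        heckeAlphaBar Kb M q (arithmeticRingAut (modularFunctionFieldFull M) s⁻¹ f) ^ q :
          ↥(modularFunctionFieldBar (M * q))) : LaurentSeries Kb) * incl A (b₂ * a₂ ^ q) =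
      incl A (b₁ * a₂ ^ q - a₁ ^ q * b₂)
    rw [map_sub, map_mul, map_mul, map_mul, map_pow, map_pow, ← hb, ← ha,
      AddSubgroupClass.coe_sub, SubmonoidClass.coe_pow]
    show (_ - _ ^ q) * _ = _ - (((heckeAlphaBar Kb M q
      (arithmeticRingAut (modularFunctionFieldFull M) s⁻¹ f) :
        ↥(modularFunctionFieldBar (M * q))) : LaurentSeries Kb) * _) ^ q * _
    ring

/-! ### (I) `j` is not in the `β`-image modulo the maximal ideal -/

/-- **(I)** `j` is not congruent modulo the maximal ideal of `O₁` to an element of `β(O_M)`. -/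
theorem j_sub_beta_not_mem (f : ↥(modularFunctionFieldBar M)) (hf : f ∈ gaussO A M hA hqM) :
    heckeAlphaBar Kb M q (Fermat.Agent.S24.jgen M) - heckeBetaBar Kb M q f ∉
      (gaussRing A (modularFunctionFieldBar (M * q)) hS).nonunits := by
  intro hmem
  have hq2 : 2 ≤ q := (Fact.out : q.Prime).two_le
  obtain ⟨z₁, z₂, hz₁, hz, -, hz12⟩ := (mem_nonunits_gaussRing_iff hS _).mp hmem
  obtain ⟨y₁, y₂, hy, hyF, hfy⟩ := (mem_gaussO_iff A M hA hqM f).mp hf
  obtain ⟨-, hb⟩ := beta_presentation A M q hyF hfy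
  have hj : ((heckeAlphaBar Kb M q (Fermat.Agent.S24.jgen M) :
      ↥(modularFunctionFieldBar (M * q))) : LaurentSeries Kb) = incl A (jqNModC A 1) := by
    rw [coe_heckeAlphaBar]
    show coeffEmb Kb (qExpand ℚ 1 jq) = coeffMap A.subtype (jqNModC A 1)
    rw [coeffEmb_qExpand_jq 1]
    exact (coeffMap_jqNModC _ 1).symm
  -- the identity `(j · Y₂(q^q) - Y₁(q^q)) · Z₂ = Z₁ · Y₂(q^q)` in `A((q))`
  have hkey : (jqNModC A 1 * qExpand A q y₂ - qExpand A q y₁) * z₂ = z₁ * qExpand A q y₂ := by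
    apply incl_injective A
    rw [map_mul, map_sub, map_mul, map_mul, ← hb, ← hz12, AddSubgroupClass.coe_sub, hj]
    ring
  have hred := congrArg (redA A) hkey
  rw [map_mul, map_mul, hz₁, zero_mul, mul_eq_zero] at hred
  have hred' : redA A (jqNModC A 1 * qExpand A q y₂ - qExpand A q y₁) = 0 :=
    hred.resolve_right hz
  rw [map_sub, map_mul, sub_eq_zero] at hred'
  have hjk : redA A (jqNModC A 1) = jqModC (IsLocalRing.ResidueField A) := by
    rw [show redA A (jqNModC A 1) = jqNModC (IsLocalRing.ResidueField A) 1 from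
      coeffMap_jqNModC _ 1]
    exact qExpand_one_apply _
  have e : ∀ y : LaurentSeries A, redA A (qExpand A q y) =
      qExpand (IsLocalRing.ResidueField A) q (redA A y) := fun y => by
    show coeffMap (IsLocalRing.residue A) (qExpand A q y) = _
    rw [coeffMap_qExpand]
  rw [hjk, e, e] at hred'
  exact jq_mul_qExpand_ne (IsLocalRing.ResidueField A) q hq2 (redA A y₁) (redA A y₂) hy hred'

/-! ### Assembly -/

/-- **`TwoGauss` from the scaling hypothesis at level `M q` and the Atkin–Lehner clauses**: for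
every `hS : HScale A (modularFunctionFieldBar (M * q)) Fk`, the `q`-expansion Gauss ring
`O₁ = gaussRing A _ hS` satisfies all the clauses (C), (R), (K), (G), (I) of
`S34.H64.TwoGauss`; the clauses (W) on `w` are taken as hypotheses. -/
theorem twoGauss_of_hScale
    (w : ↥(modularFunctionFieldBar (M * q)) ≃+* ↥(modularFunctionFieldBar (M * q)))
    (w_w : ∀ g, w (w g) = g)
    (w_algebraMap : ∀ a : Kb, w (algebraMap Kb ↥(modularFunctionFieldBar (M * q)) a) =
      algebraMap Kb ↥(modularFunctionFieldBar (M * q)) a)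
    (w_alpha : ∀ f, w (heckeAlphaBar Kb M q f) = heckeBetaBar Kb M q f)
    (w_beta : ∀ f, w (heckeBetaBar Kb M q f) = heckeAlphaBar Kb M q f)
    (w_galois : ∀ (σ : Kb ≃ₐ[ℚ] Kb) g,
      w (arithmeticRingAut (modularFunctionFieldFull (M * q)) σ g) =
        arithmeticRingAut (modularFunctionFieldFull (M * q)) σ (w g)) :
    Fermat.Agent.S34.H64.TwoGauss M q hqM A hA
      (gaussRing A (modularFunctionFieldBar (M * q)) hS) w where
  w_w := w_w
  w_algebraMap := w_algebraMap
  w_alpha := w_alpha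
  w_beta := w_beta
  w_galois := w_galois
  algebraMap_mem_iff := algebraMap_mem_iff A M q hS
  scale := scale A M q hS
  alpha_mem_iff := alpha_mem_iff A M q hS hA hqM
  beta_mem_iff := beta_mem_iff A M q hS hA hqM
  kronecker := kronecker A M q hS hA hqM
  galois_mem := galois_mem A M q hS
  inertia_sub_mem := inertia_sub_mem A M q hS
  j_sub_beta_not_mem := j_sub_beta_not_mem A M q hS hA hqM

end Clauses

end Fermat.Agent.S34.H75
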